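import Mathlib

/-!
# M59 / [E'] / AbsStep: the one-step datum of [D'] from the four degeneracy matrices
(helper8; prefix `m59eo_abs_`)

Pure linear algebra over a commutative local ring `Λ` (in the application `Λ = S ⧸ 𝔟_n`).

Input: two finite free modules `Λ^d` (level `T`) and `Λ^d'` (level `T' = T ∪ {l}`) with actions
`al : R →+* Mat_d(Λ)`, `al' : R →+* Mat_d'(Λ)` of a commutative ring `R`, the four degeneracy
matrices `A B : d' × d` (`α^*, β^*`), `A' B' : d × d'` (`α_*, β_*`), equivariant for `R`, with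
`A'A = B'B = al (l+1)`, `A'B = B'A = al t`; a left inverse `L` of `i = (A | B)` ((I1)), a right
inverse `V` of `i' = (A' ; B')` ((I2)), and `al' (t² − (l+1)²) = (A | B) Y` ((I3)).

Output (`m59eo_abs_step`): with `e + 2 d = d'` matrices `p : e × d'`, `q : d' × e`, a ring
homomorphism `alN : R →+* Mat_e(Λ)`, `ρ' : d' × d`, `Z : d × d'` and `j' := A' − ε B'` with the six
identities consumed by the chain walk of [D']:
`p q = 1`, `p al'(f) = alN(f) p`, `j' ρ' = 1`, `j' al'(f) = al(f) j'`,
`j' (1 − q p) = al((l+1) − ε t) Z`, `alN(t² − (l+1)²) = 0`.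

Front end (`m59eo_abs_leftInv_*`, `m59eo_abs_rightInv_*`): a matrix over a local ring whose
reduction modulo the maximal ideal has a left (right) inverse has a left (right) inverse; over a
field, injectivity (surjectivity) of `mulVec` gives such an inverse.
-/

set_option autoImplicit false

open Matrix

namespace Fermat.Agent.M59

/-! ### 1. Lifting one-sided inverses from the residue field -/

section lift

variable {Λ : Type*} [CommRing Λ] [IsLocalRing Λ]

/-- entrywise lift of a matrix over the residue field -/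
theorem m59eo_abs_lift {m n : Type*} (Y : Matrix m n (IsLocalRing.ResidueField Λ)) :
    ∃ Y0 : Matrix m n Λ, Y0.map (IsLocalRing.residue Λ) = Y := by
  refine ⟨fun i j => Classical.choose (IsLocalRing.residue_surjective (Y i j)), ?_⟩
  ext i j
  exact Classical.choose_spec (IsLocalRing.residue_surjective (Y i j))

/-- a square matrix congruent to `1` modulo the maximal ideal has a unit determinant -/
theorem m59eo_abs_det_unit {n : Type*} [Fintype n] [DecidableEq n] (U : Matrix n n Λ)
    (hU : U.map (IsLocalRing.residue Λ) = 1) : IsUnit U.det := by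
  apply isUnit_of_map_unit (IsLocalRing.residue Λ)
  rw [RingHom.map_det, RingHom.mapMatrix_apply, hU, det_one]
  exact isUnit_one

/-- **left inverse from the residue field** -/
theorem m59eo_abs_leftInv_of_res {m n : Type*} [Fintype m] [Fintype n] [DecidableEq n]
    (X : Matrix m n Λ)
    (h : ∃ Y : Matrix n m (IsLocalRing.ResidueField Λ), Y * X.map (IsLocalRing.residue Λ) = 1) :
    ∃ L : Matrix n m Λ, L * X = 1 := by
  obtain ⟨Y, hY⟩ := h
  obtain ⟨Y0, hY0⟩ := m59eo_abs_lift (Λ := Λ) Y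
  have hU : (Y0 * X).map (IsLocalRing.residue Λ) = 1 := by
    rw [Matrix.map_mul, hY0, hY]
  have hdet := m59eo_abs_det_unit (Y0 * X) hU
  refine ⟨(Y0 * X)⁻¹ * Y0, ?_⟩
  rw [Matrix.mul_assoc, nonsing_inv_mul _ hdet]

/-- **right inverse from the residue field** -/
theorem m59eo_abs_rightInv_of_res {m n : Type*} [Fintype m] [Fintype n] [DecidableEq m]
    (X : Matrix m n Λ)
    (h : ∃ Y : Matrix n m (IsLocalRing.ResidueField Λ), X.map (IsLocalRing.residue Λ) * Y = 1) :
    ∃ V : Matrix n m Λ, X * V = 1 := by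
  obtain ⟨Y, hY⟩ := h
  obtain ⟨Y0, hY0⟩ := m59eo_abs_lift (Λ := Λ) Y
  have hU : (X * Y0).map (IsLocalRing.residue Λ) = 1 := by
    rw [Matrix.map_mul, hY0, hY]
  have hdet := m59eo_abs_det_unit (X * Y0) hU
  refine ⟨Y0 * (X * Y0)⁻¹, ?_⟩
  rw [← Matrix.mul_assoc, mul_nonsing_inv _ hdet]

end lift

section field

variable {k : Type*} [Field k]

/-- over a field, an injective `mulVec` has a left inverse matrix -/
theorem m59eo_abs_leftInv_of_inj {m n : Type*} [Fintype m] [Fintype n] [DecidableEq m]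
    [DecidableEq n] (X : Matrix m n k) (h : Function.Injective X.mulVec) :
    ∃ Y : Matrix n m k, Y * X = 1 := by
  have hker : LinearMap.ker (Matrix.toLin' X) = ⊥ := by
    rw [LinearMap.ker_eq_bot]
    intro v w hvw
    apply h
    simpa [Matrix.toLin'_apply] using hvw
  obtain ⟨g, hg⟩ := LinearMap.exists_leftInverse_of_injective (Matrix.toLin' X) hker
  refine ⟨LinearMap.toMatrix' g, ?_⟩
  have h1 : LinearMap.toMatrix' (g ∘ₗ Matrix.toLin' X) = 1 := by
    rw [hg, LinearMap.toMatrix'_id]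
  rwa [LinearMap.toMatrix'_comp, LinearMap.toMatrix'_toLin'] at h1

/-- over a field, a surjective `mulVec` has a right inverse matrix -/
theorem m59eo_abs_rightInv_of_surj {m n : Type*} [Fintype m] [Fintype n] [DecidableEq m]
    [DecidableEq n] (X : Matrix m n k) (h : Function.Surjective X.mulVec) :
    ∃ Y : Matrix n m k, X * Y = 1 := by
  have hrange : LinearMap.range (Matrix.toLin' X) = ⊤ := by
    rw [LinearMap.range_eq_top]
    intro v
    obtain ⟨w, hw⟩ := h v
    exact ⟨w, by simpa [Matrix.toLin'_apply] using hw⟩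
  obtain ⟨g, hg⟩ := LinearMap.exists_rightInverse_of_surjective (Matrix.toLin' X) hrange
  refine ⟨LinearMap.toMatrix' g, ?_⟩
  have h1 : LinearMap.toMatrix' (Matrix.toLin' X ∘ₗ g) = 1 := by
    rw [hg, LinearMap.toMatrix'_id]
  rwa [LinearMap.toMatrix'_comp, LinearMap.toMatrix'_toLin'] at h1

end field

/-- **(I1) by Nakayama**: `(A | B)` injective modulo the maximal ideal ⟹ a left inverse. -/
theorem m59eo_abs_nak_left {Λ : Type*} [CommRing Λ] [IsLocalRing Λ] {m n : Type*} [Fintype m]
    [Fintype n] [DecidableEq m] [DecidableEq n] (X : Matrix m n Λ)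
    (h : Function.Injective (X.map (IsLocalRing.residue Λ)).mulVec) :
    ∃ L : Matrix n m Λ, L * X = 1 :=
  m59eo_abs_leftInv_of_res X (m59eo_abs_leftInv_of_inj _ h)

/-- **(I2) by Nakayama**: `(A' ; B')` surjective modulo the maximal ideal ⟹ a right inverse. -/
theorem m59eo_abs_nak_right {Λ : Type*} [CommRing Λ] [IsLocalRing Λ] {m n : Type*} [Fintype m]
    [Fintype n] [DecidableEq m] [DecidableEq n] (X : Matrix m n Λ)
    (h : Function.Surjective (X.map (IsLocalRing.residue Λ)).mulVec) :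
    ∃ V : Matrix n m Λ, X * V = 1 :=
  m59eo_abs_rightInv_of_res X (m59eo_abs_rightInv_of_surj _ h)

/-! ### 2. An idempotent matrix over a local ring: coordinates on its image -/

section idem

variable {Λ : Type*} [CommRing Λ] [IsLocalRing Λ]

/-- **the image of an idempotent of `Mat_{d'}(Λ)` complementary to a free summand of rank `#c`**:
if `1 − P = I * L` with `L * I = 1` (`I : d' × c`, `L : c × d'`) and `e + #c = d'`, then
`P = q * p` with `p * q = 1`, `p : e × d'`, `q : d' × e`. -/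
theorem m59eo_abs_idem {d' e : ℕ} {c : Type*} [Fintype c] [DecidableEq c]
    (he : e + Fintype.card c = d')
    (I : Matrix (Fin d') c Λ) (L : Matrix c (Fin d') Λ) (hLI : L * I = 1) :
    ∃ (p : Matrix (Fin e) (Fin d') Λ) (q : Matrix (Fin d') (Fin e) Λ),
      p * q = 1 ∧ q * p = 1 - I * L := by
  classical
  set P : Matrix (Fin d') (Fin d') Λ := 1 - I * L with hP
  have hPI : P * I = 0 := by
    rw [hP, Matrix.sub_mul, Matrix.one_mul, Matrix.mul_assoc, hLI, Matrix.mul_one, sub_self]
  have hLP : L * P = 0 := by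
    rw [hP, Matrix.mul_sub, Matrix.mul_one, ← Matrix.mul_assoc, hLI, Matrix.one_mul, sub_self]
  have hPP : P * P = P := by
    conv_lhs => rw [hP]
    rw [Matrix.sub_mul, Matrix.one_mul, Matrix.mul_assoc, hLP, Matrix.mul_zero, sub_zero]
  -- the image of `P`
  let N : Submodule Λ (Fin d' → Λ) := LinearMap.range (Matrix.toLin' P)
  have hPN : ∀ v : Fin d' → Λ, v ∈ N → Matrix.toLin' P v = v := by
    rintro v ⟨w, rfl⟩
    rw [← LinearMap.comp_apply, ← Matrix.toLin'_mul, hPP]
  -- the decomposition `Λ^d' ≃ Λ^c × N`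
  let toN : (Fin d' → Λ) →ₗ[Λ] N := (Matrix.toLin' P).rangeRestrict
  let Φ : (Fin d' → Λ) →ₗ[Λ] (c → Λ) × N := (Matrix.toLin' L).prod toN
  let Ψ : (c → Λ) × N →ₗ[Λ] (Fin d' → Λ) := (Matrix.toLin' I).coprod N.subtype
  have hΨΦ : ∀ v, Ψ (Φ v) = v := by
    intro v
    show Matrix.toLin' I (Matrix.toLin' L v) + Matrix.toLin' P v = v
    rw [← LinearMap.comp_apply, ← Matrix.toLin'_mul, ← LinearMap.add_apply, ← map_add, hP,
      add_sub_cancel, Matrix.toLin'_one]
    rfl
  have hΦΨ : ∀ x, Φ (Ψ x) = x := by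
    rintro ⟨a, n⟩
    have h1 : Matrix.toLin' L (Matrix.toLin' I a) = a := by
      rw [← LinearMap.comp_apply, ← Matrix.toLin'_mul, hLI, Matrix.toLin'_one]
      rfl
    have h2 : Matrix.toLin' L (n : Fin d' → Λ) = 0 := by
      rw [← hPN n n.2, ← LinearMap.comp_apply, ← Matrix.toLin'_mul, hLP]
      simp
    have h3 : Matrix.toLin' P (Matrix.toLin' I a) = 0 := by
      rw [← LinearMap.comp_apply, ← Matrix.toLin'_mul, hPI]
      simp
    refine Prod.ext ?_ ?_
    · show Matrix.toLin' L (Matrix.toLin' I a + (n : Fin d' → Λ)) = a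
      rw [map_add, h1, h2, add_zero]
    · apply Subtype.ext
      show Matrix.toLin' P (Matrix.toLin' I a + (n : Fin d' → Λ)) = n
      rw [map_add, h3, hPN n n.2, zero_add]
  let E : (Fin d' → Λ) ≃ₗ[Λ] (c → Λ) × N :=
    { Φ with
      invFun := Ψ
      left_inv := hΨΦ
      right_inv := hΦΨ }
  -- `N` is finite projective, hence free, of rank `e`
  have : Module.Finite Λ N := Module.Finite.range _
  have : Module.Projective Λ N := by
    exact Module.Projective.of_split N.subtype toN
      (LinearMap.ext fun n => Subtype.ext (hPN n n.2))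
  have : Module.Free Λ N := Module.free_of_flat_of_isLocalRing
  have hrank : Module.finrank Λ N = e := by
    have h1 := LinearEquiv.finrank_eq E
    rw [Module.finrank_prod, Module.finrank_fin_fun, Module.finrank_fintype_fun_eq_card] at h1
    omega
  let b : Module.Basis (Fin e) Λ N := Module.finBasisOfFinrankEq Λ N hrank
  -- the two matrices
  let pl : (Fin d' → Λ) →ₗ[Λ] (Fin e → Λ) := b.equivFun.toLinearMap ∘ₗ toN
  let ql : (Fin e → Λ) →ₗ[Λ] (Fin d' → Λ) := N.subtype ∘ₗ b.equivFun.symm.toLinearMap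
  have hpq : pl ∘ₗ ql = LinearMap.id := by
    refine LinearMap.ext fun x => ?_
    show b.equivFun (toN ((b.equivFun.symm x : N) : Fin d' → Λ)) = x
    have : toN ((b.equivFun.symm x : N) : Fin d' → Λ) = b.equivFun.symm x := by
      apply Subtype.ext
      exact hPN _ (b.equivFun.symm x).2
    rw [this, LinearEquiv.apply_symm_apply]
  have hqp : ql ∘ₗ pl = Matrix.toLin' P := by
    refine LinearMap.ext fun v => ?_
    show ((b.equivFun.symm (b.equivFun (toN v)) : N) : Fin d' → Λ) = Matrix.toLin' P v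
    rw [LinearEquiv.symm_apply_apply]
    rfl
  refine ⟨LinearMap.toMatrix' pl, LinearMap.toMatrix' ql, ?_, ?_⟩
  · rw [← LinearMap.toMatrix'_comp, hpq, LinearMap.toMatrix'_id]
  · rw [← LinearMap.toMatrix'_comp, hqp, LinearMap.toMatrix'_toLin']

end idem

/-! ### 3. The one-step datum -/

section step

variable {Λ R : Type*} [CommRing Λ] [IsLocalRing Λ] [CommRing R]

omit [IsLocalRing Λ] in
/-- the compression `f ↦ p * al' f * q` of a ring homomorphism to a quotient by a stable summand
is a ring homomorphism -/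
theorem m59eo_abs_compress {d' e : ℕ} (al' : R →+* Matrix (Fin d') (Fin d') Λ)
    (p : Matrix (Fin e) (Fin d') Λ) (q : Matrix (Fin d') (Fin e) Λ) (hpq : p * q = 1)
    (hst : ∀ f, q * p * al' f = q * p * al' f * (q * p)) :
    ∃ alN : R →+* Matrix (Fin e) (Fin e) Λ, ∀ f, alN f = p * al' f * q := by
  have hpP : p * (q * p) = p := by rw [← Matrix.mul_assoc, hpq, Matrix.one_mul]
  refine ⟨{ toFun := fun f => p * al' f * q
            map_one' := by rw [map_one, Matrix.mul_one, hpq]
            map_mul' := ?_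
            map_zero' := by rw [map_zero, Matrix.mul_zero, Matrix.zero_mul]
            map_add' := fun f g => by rw [map_add, Matrix.mul_add, Matrix.add_mul] }, fun _ => rfl⟩
  intro f g
  show p * al' (f * g) * q = p * al' f * q * (p * al' g * q)
  have h1 : p * al' f * (q * p) = p * al' f := by
    calc p * al' f * (q * p) = p * (q * p * al' f * (q * p)) := by
          rw [← Matrix.mul_assoc p, ← Matrix.mul_assoc p, hpP]
      _ = p * (q * p * al' f) := by rw [← hst f]
      _ = p * al' f := by rw [← Matrix.mul_assoc p, hpP]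
  calc p * al' (f * g) * q = p * al' f * al' g * q := by rw [map_mul, ← Matrix.mul_assoc]
    _ = p * al' f * (q * p) * al' g * q := by rw [h1]
    _ = p * al' f * q * (p * al' g * q) := by simp only [Matrix.mul_assoc]

/-- **THE ONE-STEP DATUM.**  See the header. -/
theorem m59eo_abs_step {d d' e : ℕ} (he : e + 2 * d = d')
    (al : R →+* Matrix (Fin d) (Fin d) Λ) (al' : R →+* Matrix (Fin d') (Fin d') Λ)
    (A B : Matrix (Fin d') (Fin d) Λ) (A' B' : Matrix (Fin d) (Fin d') Λ)
    (l : ℕ) (ε : ℤ) (hε : ε * ε = 1) (t : R)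
    (hA : ∀ f, al' f * A = A * al f) (hB : ∀ f, al' f * B = B * al f)
    (hA' : ∀ f, A' * al' f = al f * A') (hB' : ∀ f, B' * al' f = al f * B')
    (hAA : A' * A = al ((l : R) + 1)) (hBB : B' * B = al ((l : R) + 1))
    (hAB : A' * B = al t) (hBA : B' * A = al t)
    (L1 L2 : Matrix (Fin d) (Fin d') Λ)
    (hL1A : L1 * A = 1) (hL1B : L1 * B = 0) (hL2A : L2 * A = 0) (hL2B : L2 * B = 1)
    (V1 : Matrix (Fin d') (Fin d) Λ) (hAV : A' * V1 = 1) (hBV : B' * V1 = 0)
    (Y1 Y2 : Matrix (Fin d) (Fin d') Λ)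
    (hY : al' (t ^ 2 - ((l : R) + 1) ^ 2) = A * Y1 + B * Y2) :
    ∃ (p : Matrix (Fin e) (Fin d') Λ) (q : Matrix (Fin d') (Fin e) Λ)
      (alN : R →+* Matrix (Fin e) (Fin e) Λ),
      p * q = 1 ∧ (∀ f, p * al' f = alN f * p) ∧
      (A' - ε • B') * V1 = 1 ∧ (∀ f, (A' - ε • B') * al' f = al f * (A' - ε • B')) ∧
      (A' - ε • B') * (1 - q * p) = al (((l : R) + 1) - ε • t) * (L1 - ε • L2) ∧
      alN (t ^ 2 - ((l : R) + 1) ^ 2) = 0 ∧
      q * p = 1 - (A * L1 + B * L2) := by
  classical
  -- the block matrices `(A | B)` and `(L1 ; L2)`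
  have hLI : Matrix.fromRows L1 L2 * Matrix.fromCols A B = 1 := by
    rw [Matrix.fromRows_mul_fromCols, hL1A, hL1B, hL2A, hL2B, Matrix.fromBlocks_one]
  have hIL : Matrix.fromCols A B * Matrix.fromRows L1 L2 = A * L1 + B * L2 :=
    Matrix.fromCols_mul_fromRows A B L1 L2
  have hcard : e + Fintype.card (Fin d ⊕ Fin d) = d' := by
    rw [Fintype.card_sum, Fintype.card_fin]
    omega
  obtain ⟨p, q, hpq, hqp⟩ := m59eo_abs_idem (Λ := Λ) hcard _ _ hLI
  rw [hIL] at hqp
  -- `P := q * p` kills `A` and `B`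
  have hPA : q * p * A = 0 := by
    rw [hqp, Matrix.sub_mul, Matrix.one_mul, Matrix.add_mul, Matrix.mul_assoc, Matrix.mul_assoc,
      hL1A, hL2A, Matrix.mul_one, Matrix.mul_zero, add_zero, sub_self]
  have hPB : q * p * B = 0 := by
    rw [hqp, Matrix.sub_mul, Matrix.one_mul, Matrix.add_mul, Matrix.mul_assoc, Matrix.mul_assoc,
      hL1B, hL2B, Matrix.mul_one, Matrix.mul_zero, zero_add, sub_self]
  have hpA : p * A = 0 := by
    have : p * (q * p * A) = 0 := by rw [hPA, Matrix.mul_zero]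
    rwa [← Matrix.mul_assoc, ← Matrix.mul_assoc, hpq, Matrix.one_mul] at this
  have hpB : p * B = 0 := by
    have : p * (q * p * B) = 0 := by rw [hPB, Matrix.mul_zero]
    rwa [← Matrix.mul_assoc, ← Matrix.mul_assoc, hpq, Matrix.one_mul] at this
  -- stability
  have hst : ∀ f, q * p * al' f = q * p * al' f * (q * p) := by
    intro f
    have h1 : q * p * al' f * (A * L1 + B * L2) = 0 := by
      rw [Matrix.mul_add, Matrix.mul_assoc (q * p) (al' f) (A * L1),
        Matrix.mul_assoc (q * p) (al' f) (B * L2), ← Matrix.mul_assoc (al' f) A L1,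
        ← Matrix.mul_assoc (al' f) B L2, hA f, hB f, Matrix.mul_assoc A, Matrix.mul_assoc B,
        ← Matrix.mul_assoc (q * p) A, ← Matrix.mul_assoc (q * p) B, hPA, hPB, Matrix.zero_mul,
        Matrix.zero_mul, add_zero]
    calc q * p * al' f = q * p * al' f * 1 - q * p * al' f * (A * L1 + B * L2) := by
          rw [h1, sub_zero, Matrix.mul_one]
      _ = q * p * al' f * (1 - (A * L1 + B * L2)) := by rw [Matrix.mul_sub]
      _ = q * p * al' f * (q * p) := by rw [← hqp]
  obtain ⟨alN, halN⟩ := m59eo_abs_compress al' p q hpq hst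
  have hpP : p * (q * p) = p := by rw [← Matrix.mul_assoc, hpq, Matrix.one_mul]
  refine ⟨p, q, alN, hpq, ?_, ?_, ?_, ?_, ?_, hqp⟩
  · -- `p al' f = alN f p`
    intro f
    rw [halN f]
    have h1 : p * al' f * (q * p) = p * al' f := by
      calc p * al' f * (q * p) = p * (q * p * al' f * (q * p)) := by
            rw [← Matrix.mul_assoc p, ← Matrix.mul_assoc p, hpP]
        _ = p * (q * p * al' f) := by rw [← hst f]
        _ = p * al' f := by rw [← Matrix.mul_assoc p, hpP]
    calc p * al' f = p * al' f * (q * p) := h1.symm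
      _ = p * al' f * q * p := by rw [← Matrix.mul_assoc]
  · -- `j' ρ' = 1`
    rw [Matrix.sub_mul, Matrix.smul_mul, hAV, hBV, smul_zero, sub_zero]
  · -- `j' al' f = al f j'`
    intro f
    rw [Matrix.sub_mul, Matrix.smul_mul, hA' f, hB' f, Matrix.mul_sub, Matrix.mul_smul]
  · -- `j' (1 - q p) = al (s) Z`
    have hs : al (((l : R) + 1) - ε • t) = al ((l : R) + 1) - ε • al t := by
      rw [map_sub, map_zsmul]
    have hεε : ∀ X : Matrix (Fin d) (Fin d') Λ, ε • ε • X = X := by
      intro X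
      rw [smul_smul, hε, one_smul]
    rw [hqp, sub_sub_cancel, hs]
    have e1 : (A' - ε • B') * (A * L1 + B * L2) =
        (A' * A) * L1 - ε • ((B' * A) * L1) + ((A' * B) * L2 - ε • ((B' * B) * L2)) := by
      rw [Matrix.mul_add, Matrix.sub_mul, Matrix.sub_mul, Matrix.smul_mul, Matrix.smul_mul,
        Matrix.mul_assoc, Matrix.mul_assoc, Matrix.mul_assoc, Matrix.mul_assoc]
    have e2 : (al ((l : R) + 1) - ε • al t) * (L1 - ε • L2) =
        al ((l : R) + 1) * L1 - ε • (al t * L1) +
          (ε • ε • (al t * L2) - ε • (al ((l : R) + 1) * L2)) := by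
      rw [Matrix.sub_mul, Matrix.mul_sub, Matrix.mul_sub, Matrix.smul_mul, Matrix.smul_mul,
        Matrix.mul_smul, Matrix.mul_smul]
      abel
    rw [e1, e2, hAA, hBB, hAB, hBA, hεε]
  · -- `alN r = 0`
    rw [halN, hY, Matrix.mul_add, ← Matrix.mul_assoc p A, ← Matrix.mul_assoc p B, hpA, hpB,
      Matrix.zero_mul, Matrix.zero_mul, add_zero, Matrix.zero_mul]

/-- **THE ONE-STEP DATUM, Nakayama form**: (I1) and (I2) are only required modulo the maximal
ideal of `Λ`, (I3) in block form. -/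
theorem m59eo_abs_step_nak {d d' e : ℕ} (he : e + 2 * d = d')
    (al : R →+* Matrix (Fin d) (Fin d) Λ) (al' : R →+* Matrix (Fin d') (Fin d') Λ)
    (A B : Matrix (Fin d') (Fin d) Λ) (A' B' : Matrix (Fin d) (Fin d') Λ)
    (l : ℕ) (ε : ℤ) (hε : ε * ε = 1) (t : R)
    (hA : ∀ f, al' f * A = A * al f) (hB : ∀ f, al' f * B = B * al f)
    (hA' : ∀ f, A' * al' f = al f * A') (hB' : ∀ f, B' * al' f = al f * B')
    (hAA : A' * A = al ((l : R) + 1)) (hBB : B' * B = al ((l : R) + 1))
    (hAB : A' * B = al t) (hBA : B' * A = al t)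
    (hinj : Function.Injective ((Matrix.fromCols A B).map (IsLocalRing.residue Λ)).mulVec)
    (hsurj : Function.Surjective ((Matrix.fromRows A' B').map (IsLocalRing.residue Λ)).mulVec)
    (hY : ∃ Y : Matrix (Fin d ⊕ Fin d) (Fin d') Λ,
      al' (t ^ 2 - ((l : R) + 1) ^ 2) = Matrix.fromCols A B * Y) :
    ∃ (p : Matrix (Fin e) (Fin d') Λ) (q : Matrix (Fin d') (Fin e) Λ)
      (alN : R →+* Matrix (Fin e) (Fin e) Λ) (ρ' : Matrix (Fin d') (Fin d) Λ)
      (Z : Matrix (Fin d) (Fin d') Λ),
      p * q = 1 ∧ (∀ f, p * al' f = alN f * p) ∧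
      (A' - ε • B') * ρ' = 1 ∧ (∀ f, (A' - ε • B') * al' f = al f * (A' - ε • B')) ∧
      (A' - ε • B') * (1 - q * p) = al (((l : R) + 1) - ε • t) * Z ∧
      alN (t ^ 2 - ((l : R) + 1) ^ 2) = 0 := by
  classical
  obtain ⟨L, hL⟩ := m59eo_abs_nak_left _ hinj
  obtain ⟨V, hV⟩ := m59eo_abs_nak_right _ hsurj
  obtain ⟨Y, hY⟩ := hY
  rw [← Matrix.fromRows_toRows L, Matrix.fromRows_mul_fromCols, ← Matrix.fromBlocks_one,
    Matrix.fromBlocks_inj] at hL
  rw [← Matrix.fromCols_toCols V, Matrix.fromRows_mul_fromCols, ← Matrix.fromBlocks_one,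
    Matrix.fromBlocks_inj] at hV
  rw [← Matrix.fromRows_toRows Y, Matrix.fromCols_mul_fromRows] at hY
  obtain ⟨p, q, alN, h1, h2, h3, h4, h5, h6, -⟩ :=
    m59eo_abs_step he al al' A B A' B' l ε hε t hA hB hA' hB' hAA hBB hAB hBA
      L.toRows₁ L.toRows₂ hL.1 hL.2.1 hL.2.2.1 hL.2.2.2 V.toCols₁ hV.1 hV.2.2.1
      Y.toRows₁ Y.toRows₂ hY
  exact ⟨p, q, alN, V.toCols₁, L.toRows₁ - ε • L.toRows₂, h1, h2, h3, h4, h5, h6⟩

end step

end Fermat.Agent.M59
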